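import Fermat.Agent.S15.M1.Unif.AN
import Fermat.Agent.S15.M1.Star.Main
import Fermat.Agent.S15.M1.Loc.Psi2

/-!
# S15 / M1 / Unif / ANQ : the analytic contract [AN] for a curve over `ℤ` and a point over `ℚ̄`

* `starStmt` : `StarStmt N` from helper13's `Star.star`;
* `AN_Qb` : `W / ℤ`, `Q ∈ E(ℚ̄)` of exact order `N` (odd prime), `ι : ℚ̄ →ₐ[ℚ] ℂ`  ⟹  `∃ τ₀`,
  `j(τ₀) Δ_W = c₄³`,  `Δ(τ₀) Δ_W^{N-1} = N¹² ι(∏_{k=1}^{N-1} ψ₂(kQ))⁴ Δ(Nτ₀)`   (`Loc.psiProd` of helper6).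
-/

set_option autoImplicit false

noncomputable section

namespace Fermat.Agent.S15.M1.Unif

open UpperHalfPlane ModularForm EisensteinSeries Complex PeriodPair WeierstrassCurve
open Fermat.Agent.S15 Fermat.Agent.S48 Fermat.Agent.S24.JLocal Fermat.Agent.Lib.Ell
open Fermat.Agent.S58
open scoped Real MatrixGroups

local notation "Δ" => ModularForm.discriminant

/-- helper13's `Star.star` in the form used by `AN_of_star`. -/
theorem starStmt {N : ℕ} [NeZero N] (hN : N.Prime) (hodd : Odd N) : StarStmt N := by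
  intro z
  have h := Star.star N hN hodd z
  have hNC : (N : ℂ) ≠ 0 := Nat.cast_ne_zero.2 hN.ne_zero
  have hprod : Star.lineG3 N ![0, 1] z =
      ∏ k ∈ Finset.Ico 1 N, WT1.G N 3 ![0, ((k : ℕ) : ZMod N)] z := by
    unfold Star.lineG3
    symm
    have : Fact N.Prime := ⟨hN⟩
    refine Finset.prod_bij (fun k hk => (⟨(k : ZMod N), ?_⟩ : {k : ZMod N // k ≠ 0})) ?_ ?_ ?_ ?_
    · rw [Finset.mem_Ico] at hk
      rw [Ne, ZMod.natCast_eq_zero_iff]
      intro hd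
      exact absurd (Nat.le_of_dvd (by omega) hd) (by omega)
    · intro k hk
      exact Finset.mem_univ _
    · intro k hk k' hk' hkk
      rw [Finset.mem_Ico] at hk hk'
      have := congrArg Subtype.val hkk
      simp only at this
      rw [ZMod.natCast_eq_natCast_iff'] at this
      rwa [Nat.mod_eq_of_lt hk.2, Nat.mod_eq_of_lt hk'.2] at this
    · rintro ⟨k, hk⟩ _
      refine ⟨k.val, ?_, ?_⟩
      · rw [Finset.mem_Ico]
        refine ⟨?_, ZMod.val_lt k⟩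
        rw [Nat.one_le_iff_ne_zero, Ne, ZMod.val_eq_zero]
        exact hk
      · simp
    · intro k hk
      congr 1
      funext i
      fin_cases i <;> simp
  rw [← hprod, h]
  field_simp

/-- `ψ₂` commutes with the base change `ℚ̄ → ℂ`. -/
theorem psi2_map (W : WeierstrassCurve ℤ) (ι : Qb →ₐ[ℚ] ℂ) (P : EP W) (hP : P ≠ 0) :
    psi2 ((EQ W)⁄ℂ) (Affine.Point.map (W' := EQ W) ι P) = ι (Loc.psi2 P) := by
  rcases P with _ | ⟨x, y, h⟩
  · exact absurd rfl hP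
  · rw [Affine.Point.map_some, psi2_some, Loc.psi2_some]
    simp only [map_add, map_mul, map_ofNat]
    congr 1
    · congr 2
      simp only [WeierstrassCurve.baseChange, WeierstrassCurve.map_a₁, AlgHom.commutes]
    · simp only [WeierstrassCurve.baseChange, WeierstrassCurve.map_a₃, AlgHom.commutes]

/-- **Contract [AN] over `ℚ̄`.** -/
theorem AN_Qb {N : ℕ} [NeZero N] (hN : N.Prime) (hodd : Odd N) (W : WeierstrassCurve ℤ)
    (hΔ : W.Δ ≠ 0) (Q : EP W) (hQ : addOrderOf Q = N) (ι : Qb →ₐ[ℚ] ℂ) :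
    ∃ τ₀ : ℍ, kleinJ τ₀ * (W.Δ : ℂ) = (W.c₄ : ℂ) ^ 3 ∧
      Δ τ₀ * (W.Δ : ℂ) ^ (N - 1) =
        (N : ℂ) ^ 12 * ι (Loc.psiProd Q N) ^ 4 * Δ (S24.mulH N τ₀) := by
  have hΔC : ((EQ W)⁄ℂ).Δ = (W.Δ : ℂ) := by
    simp [WeierstrassCurve.baseChange, WeierstrassCurve.map_Δ]
  have hc4C : ((EQ W)⁄ℂ).c₄ = (W.c₄ : ℂ) := by
    simp [WeierstrassCurve.baseChange, WeierstrassCurve.map_c₄]
  have hΔ0 : (W.Δ : ℂ) ≠ 0 := by exact_mod_cast hΔ
  have : ((EQ W)⁄ℂ).IsElliptic := ⟨isUnit_iff_ne_zero.2 (by rw [hΔC]; exact hΔ0)⟩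
  have hQ' : addOrderOf (Affine.Point.map (W' := EQ W) ι Q) = N := by
    rw [addOrderOf_injective _ (Affine.Point.map_injective (W' := EQ W) ι), hQ]
  obtain ⟨τ₀, hj, hd⟩ := AN_of_star hN (starStmt hN hodd) ((EQ W)⁄ℂ) _ hQ'
  refine ⟨τ₀, ?_, ?_⟩
  · rw [hj, WeierstrassCurve.j, Units.val_inv_eq_inv_val, coe_Δ', hΔC, hc4C]
    field_simp
  · rw [hΔC] at hd
    rw [hd, Loc.psiProd, map_prod]
    congr 3
    refine Finset.prod_congr rfl fun k hk => ?_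
    rw [← map_nsmul, psi2_map W ι _ (Loc.nsmul_ne_zero_of_mem_Ico hQ hk)]

end Fermat.Agent.S15.M1.Unif
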