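import Mathlib

/-!
# S15 / M1 / Unif / Lattice  (pure Mathlib)

The lattice `L_τ = ℤ τ + ℤ` as a Mathlib `PeriodPair`, and its invariants in terms of the level one modular forms:
`G_k(L_τ) = 2 ζ(k) E_k(τ)`, `g₂ = (4π⁴/3) E₄`, `g₃ = (8π⁶/27) E₆`, `g₂³ - 27 g₃² = (2π)¹² Δ`.
-/

set_option autoImplicit false

noncomputable section

namespace Fermat.Agent.S15.M1.Unif

open UpperHalfPlane ModularForm EisensteinSeries Complex
open scoped Real

/-- `L_τ = ℤ τ + ℤ`. -/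
def Ltau (τ : ℍ) : PeriodPair where
  ω₁ := τ
  ω₂ := 1
  indep := by
    rw [LinearIndependent.pair_iff]
    intro s t h
    have him := congrArg Complex.im h
    have hre := congrArg Complex.re h
    simp at him hre
    have hs : s = 0 := by
      rcases him with h | h
      · exact h
      · exact absurd h τ.im_pos.ne'
    subst hs
    simp at hre
    exact ⟨rfl, hre⟩

@[simp] theorem Ltau_ω₁ (τ : ℍ) : (Ltau τ).ω₁ = τ := rfl
@[simp] theorem Ltau_ω₂ (τ : ℍ) : (Ltau τ).ω₂ = 1 := rfl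

/-- sums over the lattice are sums over `ℤ²`. -/
theorem tsum_Ltau (τ : ℍ) (f : ℂ → ℂ) :
    ∑' l : (Ltau τ).lattice, f l = ∑' x : Fin 2 → ℤ, f ((x 0 : ℂ) * τ + (x 1 : ℂ)) := by
  let e : (Fin 2 → ℤ) ≃ (Ltau τ).lattice :=
    (LinearEquiv.finTwoArrow ℤ ℤ).toEquiv.trans (Ltau τ).latticeEquivProd.symm.toEquiv
  rw [← e.tsum_eq]
  refine tsum_congr fun x => ?_
  have : ((e x : (Ltau τ).lattice) : ℂ) = (x 0 : ℂ) * τ + (x 1 : ℂ) := by
    simp only [e, Equiv.trans_apply, LinearEquiv.coe_toEquiv]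
    rw [PeriodPair.latticeEquiv_symm_apply]
    simp
  rw [this]

theorem mem_Ltau {τ : ℍ} {z : ℂ} :
    z ∈ (Ltau τ).lattice ↔ ∃ x : Fin 2 → ℤ, z = (x 0 : ℂ) * τ + (x 1 : ℂ) := by
  rw [PeriodPair.mem_lattice]
  constructor
  · rintro ⟨m, n, h⟩
    exact ⟨![m, n], by simpa using h.symm⟩
  · rintro ⟨x, h⟩
    exact ⟨x 0, x 1, by simpa using h.symm⟩

theorem G_Ltau (τ : ℍ) (k : ℕ) : (Ltau τ).G k = ∑' x : Fin 2 → ℤ, eisSummand (k : ℤ) x τ := by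
  rw [PeriodPair.G, tsum_Ltau τ (fun l => (l ^ k)⁻¹)]
  refine tsum_congr fun x => ?_
  simp [eisSummand, zpow_neg]

theorem G_Ltau_eq (τ : ℍ) {k : ℕ} (hk : 3 ≤ k) :
    (Ltau τ).G k = 2 * riemannZeta k * E hk τ := by
  rw [G_Ltau, tsum_eisSummand_eq_riemannZeta_mul_eisensteinSeries hk]
  have : E hk τ = (1 / 2 : ℂ) * eisensteinSeries (N := 1) 0 k τ := by
    rw [show E hk τ = (1 / 2 : ℂ) • eisensteinSeriesSIF (N := 1) 0 k τ from rfl,
      eisensteinSeriesSIF_apply 0 k τ, smul_eq_mul]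
  rw [this]
  ring

theorem riemannZeta_six' : riemannZeta 6 = (π : ℂ) ^ 6 / 945 := by
  have h := riemannZeta_two_mul_nat (k := 3) (by norm_num)
  have hb : bernoulli 6 = 1 / 42 := by decide +kernel
  norm_num [hb, Nat.factorial] at h
  rw [h]
  ring

theorem g₂_Ltau (τ : ℍ) : (Ltau τ).g₂ = 4 * (π : ℂ) ^ 4 / 3 * E₄ τ := by
  rw [PeriodPair.g₂, G_Ltau_eq τ (by norm_num : 3 ≤ 4)]
  have := riemannZeta_four
  push_cast
  rw [this]
  ring

theorem g₃_Ltau (τ : ℍ) : (Ltau τ).g₃ = 8 * (π : ℂ) ^ 6 / 27 * E₆ τ := by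
  rw [PeriodPair.g₃, G_Ltau_eq τ (by norm_num : 3 ≤ 6)]
  have := riemannZeta_six'
  push_cast
  rw [this]
  ring

theorem disc_Ltau (τ : ℍ) :
    (Ltau τ).g₂ ^ 3 - 27 * (Ltau τ).g₃ ^ 2 = (2 * (π : ℂ)) ^ 12 * ModularForm.discriminant τ := by
  rw [g₂_Ltau, g₃_Ltau, discriminant_eq_E₄_cube_sub_E₆_sq]
  ring

end Fermat.Agent.S15.M1.Unif
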