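import Fermat.Agent.S15.M1.Unif.Complex
import Fermat.Agent.S24.Psi

/-!
# S15 / M1 / Unif / AN : the analytic contract [AN] of route PSI

* `psi2 W P = 2y + a₁x + a₃`;
* `wp'_divPt` : `℘'((aτ+b)/M) = -2 M³ G₃^{(a,b)}(τ)` (`S48.WT1.G`);
* `exists_unif'` : uniformisation `U : ℂ →+ W(ℂ)` with `ψ₂(U z) = u³ ℘'(z)`, `Δ_W = u¹² (2π)¹² Δ(τ)`;
* `exists_SL2_bottom`, `discriminant_smul`, `G3_line` : change of basis;
* `StarStmt N` : helper13's identity `(∏_k G₃^{(0,k)})⁴ Δ(Nτ) N¹² = C₃^{4(N-1)} Δ(τ)^N`;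
* `AN_of_star` : `W/ℂ`, `Q` of exact order `N` prime  ⟹  `∃ τ₀, j(τ₀) = j(W)`,
  `Δ(τ₀) Δ_W^{N-1} = N¹² (∏_{k=1}^{N-1} ψ₂(kQ))⁴ Δ(Nτ₀)`.
-/

set_option autoImplicit false

noncomputable section

namespace Fermat.Agent.S15.M1.Unif

open UpperHalfPlane ModularForm EisensteinSeries Complex PeriodPair WeierstrassCurve
open Fermat.Agent.S15 Fermat.Agent.S48 Fermat.Agent.S24.JLocal Fermat.Agent.Lib.Ell
open scoped Real MatrixGroups

local notation "Δ" => ModularForm.discriminant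

/-- `ψ₂(P) = 2y + a₁x + a₃` (`0` at the origin). -/
def psi2 {F : Type*} [Field F] (W : WeierstrassCurve F) : W.toAffine.Point → F
  | .zero => 0
  | .some x y _ => 2 * y + W.a₁ * x + W.a₃

theorem psi2_some {F : Type*} [Field F] (W : WeierstrassCurve F) (x y : F)
    (h : W.toAffine.Nonsingular x y) : psi2 W (.some x y h) = 2 * y + W.a₁ * x + W.a₃ := rfl

/-- `℘'` at a division point is a level `M` Eisenstein series of weight `3`. -/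
theorem wp'_divPt (M : ℕ) [NeZero M] (τ : ℍ) (a b : ℤ) :
    ℘'[Ltau τ] (M1a.divPt (Ltau τ) M a b) =
      -2 * (M : ℂ) ^ 3 * WT1.G M 3 (WT1.redVec M ![a, b]) τ := by
  have hM : (M : ℂ) ≠ 0 := Nat.cast_ne_zero.2 (NeZero.ne M)
  rw [PeriodPair.derivWeierstrassP, tsum_Ltau τ (fun l => 2 / (M1a.divPt (Ltau τ) M a b - l) ^ 3)]
  unfold WT1.G Fermat.Agent.GAL.Tors.TwistedEis.gEis
  rw [neg_mul, neg_mul, ← tsum_mul_left]
  congr 1
  let φ : (Fin 2 → ℤ) → (Fin 2 → ℤ) := fun x => ![a - M * x 0, b - M * x 1]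
  have hφ : Function.Injective φ := by
    intro x y h
    have h0 := congrFun h 0
    have h1 := congrFun h 1
    simp only [φ, Matrix.cons_val_zero, Matrix.cons_val_one] at h0 h1
    have hM' : (M : ℤ) ≠ 0 := Int.natCast_ne_zero.2 (NeZero.ne M)
    funext i
    fin_cases i
    · exact mul_left_cancel₀ hM' (by simpa using h0)
    · exact mul_left_cancel₀ hM' (by simpa using h1)
  have hsupp : Function.support (fun y : Fin 2 → ℤ =>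
      2 * (M : ℂ) ^ 3 * (WT1.ind M (WT1.redVec M ![a, b]) y * eisSummand 3 y τ)) ⊆ Set.range φ := by
    intro y hy
    have hind : WT1.redVec M y = WT1.redVec M ![a, b] := by
      by_contra hne
      apply hy
      simp [WT1.ind, hne]
    have h0 := congrFun hind 0
    have h1 := congrFun hind 1
    simp only [WT1.redVec, Matrix.cons_val_zero, Matrix.cons_val_one] at h0 h1
    rw [ZMod.intCast_eq_intCast_iff_dvd_sub] at h0 h1
    obtain ⟨c0, hc0⟩ := h0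
    obtain ⟨c1, hc1⟩ := h1
    refine ⟨![c0, c1], ?_⟩
    funext i
    fin_cases i
    · simp only [φ, Matrix.cons_val_zero, Fin.zero_eta]; omega
    · simp only [φ, Matrix.cons_val_one, Matrix.cons_val_zero, Fin.mk_one]; omega
  rw [← hφ.tsum_eq hsupp]
  refine tsum_congr fun x => ?_
  have hind : WT1.ind M (WT1.redVec M ![a, b]) (φ x) = 1 := by
    have : WT1.redVec M (φ x) = WT1.redVec M ![a, b] := by
      funext i
      fin_cases i <;> simp [WT1.redVec, φ]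
    simp [WT1.ind, this]
  rw [hind, one_mul]
  simp only [eisSummand, φ, Matrix.cons_val_zero, Matrix.cons_val_one, M1a.divPt, Ltau_ω₁, Ltau_ω₂]
  have e : (((a : ℂ) * τ + (b : ℂ) * 1) / M - ((x 0 : ℂ) * τ + (x 1 : ℂ))) =
      ((((a - M * x 0 : ℤ) : ℂ) * τ + ((b - M * x 1 : ℤ) : ℂ)) / M) := by
    push_cast
    field_simp
    ring
  rw [e]
  rw [show (-(3 : ℤ)) = -((3 : ℕ) : ℤ) from rfl, zpow_neg, zpow_natCast, div_pow]
  generalize ((((a - M * x 0 : ℤ) : ℂ) * τ + ((b - M * x 1 : ℤ) : ℂ))) ^ 3 = X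
  rw [div_div_eq_mul_div, div_eq_mul_inv]

/-- **Uniformisation**, second form: `ψ₂` and `Δ`. -/
theorem exists_unif' (W : WeierstrassCurve ℂ) [W.IsElliptic] :
    ∃ (τ : ℍ) (U : ℂ →+ W.toAffine.Point) (u : ℂ), u ≠ 0 ∧ kleinJ τ = W.j ∧ Function.Surjective U ∧
      (∀ z, U z = 0 ↔ z ∈ (Ltau τ).lattice) ∧
      W.Δ = u ^ 12 * ((2 * (π : ℂ)) ^ 12 * Δ τ) ∧
      ∀ z, psi2 W (U z) = u ^ 3 * ℘'[Ltau τ] z := by
  obtain ⟨τ, hτ⟩ := kleinJ_surjective W.j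
  obtain ⟨C, hC⟩ := exists_variableChange_of_j_eq W (M1a.WL (Ltau τ))
    (by rw [WL_Ltau_j, hτ])
  have hu : (C.u : ℂ) ≠ 0 := C.u.ne_zero
  refine ⟨τ, (vcEquiv C hC).toAddMonoidHom.comp (M1a.phiHom (Ltau τ)), C.u, hu, hτ,
    (vcEquiv C hC).surjective.comp (M1a.phi_surjective _), ?_, ?_, ?_⟩
  · intro z
    simp only [AddMonoidHom.coe_comp, Function.comp_apply, M1a.phiHom_apply,
      AddEquiv.coe_toAddMonoidHom, EmbeddingLike.map_eq_zero_iff, M1a.phi_eq_zero_iff]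
  · rw [← disc_Ltau, ← M1a.WL_Δ, ← hC, variableChange_Δ, Units.val_inv_eq_inv_val]
    field_simp
  · intro z
    simp only [AddMonoidHom.coe_comp, Function.comp_apply, M1a.phiHom_apply,
      AddEquiv.coe_toAddMonoidHom]
    by_cases hz : z ∈ (Ltau τ).lattice
    · rw [M1a.phi_of_mem _ hz, map_zero, (Ltau τ).derivWeierstrassP_coe ⟨z, hz⟩, mul_zero]
      rfl
    · obtain ⟨h', hh'⟩ := vcEquiv_some C hC _ _ (M1a.nonsingular_wp (Ltau τ) hz)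
      rw [M1a.phi_of_notMem _ hz, hh', psi2_some, VarChange_polyY, hC]
      simp only [M1a.WL_a₁, M1a.WL_a₃]
      ring

/-- a nonzero vector mod a prime is the bottom row of an element of `SL₂(ℤ)`. -/
theorem exists_SL2_bottom {N : ℕ} (hN : N.Prime) (a b : ℤ) (hab : ¬ ((N : ℤ) ∣ a ∧ (N : ℤ) ∣ b)) :
    ∃ γ : SL(2, ℤ), ((γ 1 0 : ℤ) : ZMod N) = a ∧ ((γ 1 1 : ℤ) : ZMod N) = b := by
  have hNp : Prime (N : ℤ) := Nat.prime_iff_prime_int.1 hN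
  obtain ⟨c, d, hcd, hc, hd⟩ : ∃ c d : ℤ, IsCoprime c d ∧ ((c : ℤ) : ZMod N) = a ∧
      ((d : ℤ) : ZMod N) = b := by
    by_cases ha : (N : ℤ) ∣ a
    · have hb : ¬ (N : ℤ) ∣ b := fun hb => hab ⟨ha, hb⟩
      refine ⟨N, b, (hNp.coprime_iff_not_dvd).2 hb, ?_, rfl⟩
      rw [(ZMod.intCast_zmod_eq_zero_iff_dvd a N).2 ha]
      simp
    · obtain ⟨v, u, huv⟩ : IsCoprime (N : ℤ) a := (hNp.coprime_iff_not_dvd).2 ha
      refine ⟨a, 1 - u * a * (1 - b), ⟨u * (1 - b), 1, by ring⟩, rfl, ?_⟩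
      have : (1 - u * a * (1 - b) : ℤ) = b + N * (v * (1 - b)) := by
        linear_combination (b - 1) * huv
      rw [this]
      simp
  obtain ⟨γ, -, hγ⟩ := ModularGroup.bottom_row_surj (R := ℤ) (show ![c, d] ∈ {cd : Fin 2 → ℤ | IsCoprime (cd 0) (cd 1)} from hcd)
  refine ⟨γ, ?_, ?_⟩
  · have := congrFun hγ 0
    simp only [Matrix.cons_val_zero] at this
    rw [this, hc]
  · have := congrFun hγ 1
    simp only [Matrix.cons_val_one, Matrix.cons_val_zero] at this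
    rw [this, hd]

/-- `Δ(γτ) = (cτ+d)¹² Δ(τ)`. -/
theorem discriminant_smul (γ : SL(2, ℤ)) (τ : ℍ) :
    Δ (γ • τ) = denom γ τ ^ 12 * Δ τ := by
  have hγ : (γ : GL (Fin 2) ℝ) ∈ 𝒮ℒ := ⟨γ, rfl⟩
  have h12 : (Δ ∣[(12 : ℤ)] γ) τ = Δ τ := by
    have := SlashInvariantFormClass.slash_action_eq CuspForm.discriminant _ hγ
    rw [SL_slash]
    exact congrFun this τ
  rw [SL_slash_apply] at h12
  have hd : denom γ τ ≠ 0 := denom_ne_zero (γ : GL (Fin 2) ℝ) τ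
  rw [← h12, zpow_neg, show ((12 : ℤ)) = ((12 : ℕ) : ℤ) from rfl, zpow_natCast]
  field_simp

/-- `G₃^{k(a,b)}(τ) = (cτ+d)⁻³ G₃^{(0,k)}(γτ)` if the bottom row of `γ` is `(a,b)` mod `N`. -/
theorem G3_line (N : ℕ) (γ : SL(2, ℤ)) (a b : ℤ) (ha : ((γ 1 0 : ℤ) : ZMod N) = a)
    (hb : ((γ 1 1 : ℤ) : ZMod N) = b) (k : ℤ) (τ : ℍ) :
    WT1.G N 3 (WT1.redVec N ![k * a, k * b]) τ * denom γ τ ^ 3 =
      WT1.G N 3 ![0, (k : ZMod N)] (γ • τ) := by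
  have h := congrFun (WT1.G_slash N 3 ![0, (k : ZMod N)] γ) τ
  have hv : (Matrix.vecMul ![0, (k : ZMod N)] (WT1.redSL N γ)) = WT1.redVec N ![k * a, k * b] := by
    funext i
    fin_cases i
    · simp [WT1.redSL, WT1.redVec, Matrix.vecMul, dotProduct, Fin.sum_univ_two, ha]
    · simp [WT1.redSL, WT1.redVec, Matrix.vecMul, dotProduct, Fin.sum_univ_two, hb]
  rw [hv, SL_slash_apply] at h
  have hd : denom γ τ ≠ 0 := denom_ne_zero (γ : GL (Fin 2) ℝ) τ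
  rw [← h, zpow_neg, show ((3 : ℤ)) = ((3 : ℕ) : ℤ) from rfl, zpow_natCast]
  field_simp

/-- helper13's identity (STAR). -/
def StarStmt (N : ℕ) [NeZero N] : Prop :=
  ∀ z : ℍ, (∏ k ∈ Finset.Ico 1 N, WT1.G N 3 ![0, ((k : ℕ) : ZMod N)] z) ^ 4 * Δ (S24.mulH N z)
      * (N : ℂ) ^ 12 = (WT1.Ck N 3) ^ (4 * (N - 1)) * Δ z ^ N

/-- **Contract [AN]** of route PSI. -/
theorem AN_of_star {N : ℕ} [NeZero N] (hN : N.Prime) (hstar : StarStmt N)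
    (W : WeierstrassCurve ℂ) [W.IsElliptic] (Q : W.toAffine.Point) (hQ : addOrderOf Q = N) :
    ∃ τ₀ : ℍ, kleinJ τ₀ = W.j ∧
      Δ τ₀ * W.Δ ^ (N - 1) =
        (N : ℂ) ^ 12 * (∏ k ∈ Finset.Ico 1 N, psi2 W (k • Q)) ^ 4 * Δ (S24.mulH N τ₀) := by
  obtain ⟨τ, U, u, hu, hτ, hsurj, hker, hΔ, hpsi⟩ := exists_unif' W
  have hNC : (N : ℂ) ≠ 0 := Nat.cast_ne_zero.2 hN.ne_zero
  have hπ : (π : ℂ) ≠ 0 := by exact_mod_cast Real.pi_ne_zero
  obtain ⟨z, rfl⟩ := hsurj Q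
  have hNz : (N : ℂ) * z ∈ (Ltau τ).lattice := by
    rw [← hker, ← nsmul_eq_mul, map_nsmul, ← hQ, addOrderOf_nsmul_eq_zero]
  obtain ⟨a, b, hab⟩ := PeriodPair.mem_lattice.1 hNz
  have hz : z = M1a.divPt (Ltau τ) N a b := by
    rw [M1a.divPt, hab, mul_div_cancel_left₀ _ hNC]
  have hndvd : ¬ ((N : ℤ) ∣ a ∧ (N : ℤ) ∣ b) := by
    rintro ⟨⟨a', rfl⟩, ⟨b', rfl⟩⟩
    have hzL : z ∈ (Ltau τ).lattice := by
      rw [hz, M1a.divPt]
      refine PeriodPair.mem_lattice.2 ⟨a', b', ?_⟩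
      push_cast
      field_simp
    have h0 : U z = 0 := (hker z).2 hzL
    rw [h0, addOrderOf_zero] at hQ
    exact hN.one_lt.ne hQ
  obtain ⟨γ, hγa, hγb⟩ := exists_SL2_bottom hN a b hndvd
  refine ⟨γ • τ, by rw [kleinJ_smul, hτ], ?_⟩
  set D := denom γ τ with hD
  have hD0 : D ≠ 0 := denom_ne_zero (γ : GL (Fin 2) ℝ) τ
  have hk : ∀ k ∈ Finset.Ico 1 N, psi2 W (k • U z) =
      (u ^ 3 * (-2 * (N : ℂ) ^ 3) * (D ^ 3)⁻¹) * WT1.G N 3 ![0, ((k : ℕ) : ZMod N)] (γ • τ) := by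
    intro k _
    have h1 : k • U z = U (M1a.divPt (Ltau τ) N ((k : ℤ) * a) ((k : ℤ) * b)) := by
      rw [M1a.divPt_smul, ← hz, ← map_nsmul, nsmul_eq_mul]
      simp
    have h2 := G3_line N γ a b hγa hγb (k : ℤ) τ
    rw [Int.cast_natCast] at h2
    rw [h1, hpsi, wp'_divPt, ← h2, ← hD]
    field_simp
  rw [Finset.prod_congr rfl hk, Finset.prod_mul_distrib, Finset.prod_const, Nat.card_Ico,
    discriminant_smul γ τ, ← hD]
  have hs := hstar (γ • τ)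
  rw [discriminant_smul γ τ, ← hD] at hs
  set P := ∏ k ∈ Finset.Ico 1 N, WT1.G N 3 ![0, ((k : ℕ) : ZMod N)] (γ • τ) with hP
  set n := N - 1 with hn
  have hNn : N = n + 1 := by have := hN.one_lt; omega
  have hCk : WT1.Ck N 3 ^ 4 * (16 * (N : ℂ) ^ 12) = (2 * (π : ℂ)) ^ 12 := by
    unfold WT1.Ck
    have hI : (-2 * (π : ℂ) * Complex.I) ^ 3 = 8 * (π : ℂ) ^ 3 * Complex.I := by
      rw [mul_pow, mul_pow, Complex.I_pow_three]
      ring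
    rw [hI]
    norm_num [Nat.factorial]
    field_simp
    rw [Complex.I_pow_four]
    norm_num
  have key : (N : ℂ) ^ 12 * ((u ^ 3 * (-2 * (N : ℂ) ^ 3) * (D ^ 3)⁻¹) ^ n * P) ^ 4 *
      Δ (S24.mulH N (γ • τ)) =
      ((u ^ 3 * (-2 * (N : ℂ) ^ 3) * (D ^ 3)⁻¹) ^ 4) ^ n *
        (P ^ 4 * Δ (S24.mulH N (γ • τ)) * (N : ℂ) ^ 12) := by
    rw [mul_pow, ← pow_mul, ← pow_mul, mul_comm n 4]
    ring
  have e1 : (u ^ 3 * (-2 * (N : ℂ) ^ 3) * (D ^ 3)⁻¹) ^ 4 * WT1.Ck N 3 ^ 4 =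
      u ^ 12 * (2 * (π : ℂ)) ^ 12 * (D ^ 12)⁻¹ := by
    rw [← hCk]
    field_simp
    ring
  have e2 : u ^ 12 * (2 * (π : ℂ)) ^ 12 * (D ^ 12)⁻¹ * (D ^ 12 * Δ τ) =
      u ^ 12 * ((2 * (π : ℂ)) ^ 12 * Δ τ) := by
    field_simp
  rw [key, hs, hΔ, pow_mul, ← e2, ← e1]
  rw [show (D ^ 12 * Δ τ) ^ N = (D ^ 12 * Δ τ) ^ n * (D ^ 12 * Δ τ) by rw [← pow_succ, ← hNn]]
  generalize (u ^ 3 * (-2 * (N : ℂ) ^ 3) * (D ^ 3)⁻¹) ^ 4 = X
  generalize WT1.Ck N 3 ^ 4 = Y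
  generalize D ^ 12 * Δ τ = Z
  rw [mul_pow (X * Y) Z n, mul_pow X Y n]
  ring

end Fermat.Agent.S15.M1.Unif
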