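import Fermat.Agent.S15.M1a.Tors
import Fermat.Agent.S15.M1.Unif.Lattice
import Fermat.Agent.S24.JLocal
import Fermat.Agent.Lib.Ell.VarChange
import Fermat.Agent.S48.Full.Eis4Defs

/-!
# S15 / M1 / Unif / Complex : uniformisation of an elliptic curve over `ℂ`

* `wpp_eq_sumInvPow` : `℘''(z) = 6 ∑ (l - z)⁻⁴`;
* `sumInvPow_divPt` : at `z = (aτ + b)/M` this is `M⁴ G₄^{(a,b)}(τ)` (`S48.WT1.G`);
* `WL_Ltau_j` : `j(E_{L_τ}) = kleinJ τ`;
* `exists_unif` : every elliptic curve `W` over `ℂ` is `ℂ / L_τ`, `kleinJ τ = j(W)`, and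
  `(6x² + b₂x + b₄)(U(z_v)) · j(τ) = c₄ · hA M v τ`  (`S48.Full.hA` = the analytic function with `t`-expansion `hVec ζ v`).
-/

set_option autoImplicit false

noncomputable section

namespace Fermat.Agent.S15.M1.Unif

open UpperHalfPlane ModularForm EisensteinSeries Complex PeriodPair WeierstrassCurve
open Fermat.Agent.S15 Fermat.Agent.S48 Fermat.Agent.S24.JLocal Fermat.Agent.Lib.Ell
open scoped Real

/-- `℘''(z) = 6 ∑ (l - z)⁻⁴`. -/
theorem wpp_eq_sumInvPow (L : PeriodPair) {z : ℂ} (hz : z ∉ L.lattice) :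
    M1a.wpp L z = 6 * L.sumInvPow z 4 := by
  rw [← (M1a.hasDerivAt_wp' L hz).deriv, ← L.deriv_derivWeierstrassPExcept_self z,
    L.derivWeierstrassPExcept_of_notMem z hz]

/-- the lattice sum at a division point is a level `M` Eisenstein series. -/
theorem sumInvPow_divPt (M : ℕ) [NeZero M] (τ : ℍ) (a b : ℤ) :
    (Ltau τ).sumInvPow (M1a.divPt (Ltau τ) M a b) 4 =
      (M : ℂ) ^ 4 * WT1.G M 4 (WT1.redVec M ![a, b]) τ := by
  have hM : (M : ℂ) ≠ 0 := Nat.cast_ne_zero.2 (NeZero.ne M)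
  rw [PeriodPair.sumInvPow, tsum_Ltau τ (fun l => ((l - M1a.divPt (Ltau τ) M a b) ^ 4)⁻¹)]
  unfold WT1.G Fermat.Agent.GAL.Tors.TwistedEis.gEis
  rw [← tsum_mul_left]
  -- the injection `x ↦ (a, b) - M x`
  let φ : (Fin 2 → ℤ) → (Fin 2 → ℤ) := fun x => ![a - M * x 0, b - M * x 1]
  have hφ : Function.Injective φ := by
    intro x y h
    have h0 := congrFun h 0
    have h1 := congrFun h 1
    simp only [φ, Matrix.cons_val_zero, Matrix.cons_val_one] at h0 h1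
    have hM' : (M : ℤ) ≠ 0 := Int.natCast_ne_zero.2 (NeZero.ne M)
    funext i
    fin_cases i
    · exact mul_left_cancel₀ hM' (by simpa using h0)
    · exact mul_left_cancel₀ hM' (by simpa using h1)
  have hsupp : Function.support (fun y : Fin 2 → ℤ =>
      (M : ℂ) ^ 4 * (WT1.ind M (WT1.redVec M ![a, b]) y * eisSummand 4 y τ)) ⊆ Set.range φ := by
    intro y hy
    have hind : WT1.redVec M y = WT1.redVec M ![a, b] := by
      by_contra hne
      apply hy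
      simp [WT1.ind, hne]
    have h0 := congrFun hind 0
    have h1 := congrFun hind 1
    simp only [WT1.redVec, Matrix.cons_val_zero, Matrix.cons_val_one] at h0 h1
    rw [ZMod.intCast_eq_intCast_iff_dvd_sub] at h0 h1
    obtain ⟨c0, hc0⟩ := h0
    obtain ⟨c1, hc1⟩ := h1
    refine ⟨![c0, c1], ?_⟩
    funext i
    fin_cases i
    · simp only [φ, Matrix.cons_val_zero, Fin.zero_eta]; omega
    · simp only [φ, Matrix.cons_val_one, Matrix.cons_val_zero, Fin.mk_one]; omega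
  rw [← hφ.tsum_eq hsupp]
  refine tsum_congr fun x => ?_
  have hind : WT1.ind M (WT1.redVec M ![a, b]) (φ x) = 1 := by
    have : WT1.redVec M (φ x) = WT1.redVec M ![a, b] := by
      funext i
      fin_cases i <;> simp [WT1.redVec, φ]
    simp [WT1.ind, this]
  rw [hind, one_mul]
  simp only [eisSummand, φ, Matrix.cons_val_zero, Matrix.cons_val_one, M1a.divPt, Ltau_ω₁, Ltau_ω₂]
  have e : ((x 0 : ℂ) * τ + (x 1 : ℂ) - ((a : ℂ) * τ + (b : ℂ) * 1) / M) =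
      -((((a - M * x 0 : ℤ) : ℂ) * τ + ((b - M * x 1 : ℤ) : ℂ)) / M) := by
    push_cast
    field_simp
    ring
  rw [e]
  rw [show (-(4 : ℤ)) = -((4 : ℕ) : ℤ) from rfl, zpow_neg, zpow_natCast, neg_pow, div_pow]
  generalize ((((a - M * x 0 : ℤ) : ℂ) * τ + ((b - M * x 1 : ℤ) : ℂ))) ^ 4 = X
  rw [show ((-1 : ℂ)) ^ 4 = 1 by norm_num, one_mul, inv_div, div_eq_mul_inv]

instance instIsEllipticWL (L : PeriodPair) : (M1a.WL L).IsElliptic :=
  ⟨isUnit_iff_ne_zero.2 (M1a.WL_Δ_ne_zero L)⟩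

theorem WL_Ltau_j (τ : ℍ) : (M1a.WL (Ltau τ)).j = kleinJ τ := by
  have hπ : (π : ℂ) ≠ 0 := by exact_mod_cast Real.pi_ne_zero
  have hΔ := discriminant_ne_zero τ
  rw [WeierstrassCurve.j, Units.val_inv_eq_inv_val, coe_Δ', M1a.WL_Δ, M1a.WL_c₄, disc_Ltau,
    g₂_Ltau, kleinJ]
  field_simp
  ring

theorem WL_b₂ (L : PeriodPair) : (M1a.WL L).b₂ = 0 := by
  simp [WeierstrassCurve.b₂]

theorem WL_b₄ (L : PeriodPair) : (M1a.WL L).b₄ = -L.g₂ / 2 := by
  simp [WeierstrassCurve.b₄]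
  ring

/-- the weight `4` covariant `6x² + b₂x + b₄` under a change of variables. -/
theorem kapNum_vc {F : Type*} [Field F] (W : WeierstrassCurve F) (C : VariableChange F) (x : F) :
    6 * vcX C x ^ 2 + W.b₂ * vcX C x + W.b₄ =
      (C.u : F) ^ 4 * (6 * x ^ 2 + (C • W).b₂ * x + (C • W).b₄) := by
  have hu : (C.u : F) ≠ 0 := C.u.ne_zero
  rw [variableChange_b₂, variableChange_b₄, Units.val_inv_eq_inv_val]
  unfold vcX
  field_simp
  ring

theorem c₄_vc {F : Type*} [Field F] (W : WeierstrassCurve F) (C : VariableChange F) :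
    W.c₄ = (C.u : F) ^ 4 * (C • W).c₄ := by
  have hu : (C.u : F) ≠ 0 := C.u.ne_zero
  rw [variableChange_c₄, Units.val_inv_eq_inv_val]
  field_simp

/-- on `E_{L_τ}` : `℘''(z_v) j(τ) = c₄ h_v(τ)`. -/
theorem wpp_divPt (M : ℕ) [NeZero M] (τ : ℍ) (a b : ℤ)
    (hz : M1a.divPt (Ltau τ) M a b ∉ (Ltau τ).lattice) :
    M1a.wpp (Ltau τ) (M1a.divPt (Ltau τ) M a b) * kleinJ τ =
      (M1a.WL (Ltau τ)).c₄ * Full.hA M (WT1.redVec M ![a, b]) τ := by
  have hπ : (π : ℂ) ≠ 0 := by exact_mod_cast Real.pi_ne_zero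
  have hM : (M : ℂ) ≠ 0 := Nat.cast_ne_zero.2 (NeZero.ne M)
  have hΔ := discriminant_ne_zero τ
  rw [wpp_eq_sumInvPow _ hz, sumInvPow_divPt, M1a.WL_c₄, g₂_Ltau, kleinJ, Full.hA]
  unfold Full.G4 Full.cM WT1.Ck
  generalize WT1.G M 4 (WT1.redVec M ![a, b]) τ = g
  have hI : (-2 * (π : ℂ) * Complex.I) ^ 4 = 16 * (π : ℂ) ^ 4 := by
    rw [mul_pow, mul_pow, Complex.I_pow_four]
    norm_num
  rw [hI]
  norm_num [Nat.factorial]
  field_simp
  ring

/-- **Uniformisation** of an elliptic curve over `ℂ`, with the value of the weight `0` invariant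
`(6x² + b₂x + b₄)/c₄` at the division points. -/
theorem exists_unif (W : WeierstrassCurve ℂ) [W.IsElliptic] :
    ∃ (τ : ℍ) (U : ℂ →+ W.toAffine.Point), kleinJ τ = W.j ∧ Function.Surjective U ∧
      (∀ z, U z = 0 ↔ z ∈ (Ltau τ).lattice) ∧
      ∀ (M : ℕ) [NeZero M] (a b : ℤ), M1a.divPt (Ltau τ) M a b ∉ (Ltau τ).lattice →
        ∃ x y h, U (M1a.divPt (Ltau τ) M a b) = .some x y h ∧
          (6 * x ^ 2 + W.b₂ * x + W.b₄) * kleinJ τ =
            W.c₄ * Full.hA M (WT1.redVec M ![a, b]) τ := by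
  obtain ⟨τ, hτ⟩ := kleinJ_surjective W.j
  obtain ⟨C, hC⟩ := exists_variableChange_of_j_eq W (M1a.WL (Ltau τ))
    (by rw [WL_Ltau_j, hτ])
  refine ⟨τ, (vcEquiv C hC).toAddMonoidHom.comp (M1a.phiHom (Ltau τ)), hτ,
    (vcEquiv C hC).surjective.comp (M1a.phi_surjective _), ?_, ?_⟩
  · intro z
    simp only [AddMonoidHom.coe_comp, Function.comp_apply, M1a.phiHom_apply,
      AddEquiv.coe_toAddMonoidHom, EmbeddingLike.map_eq_zero_iff, M1a.phi_eq_zero_iff]
  · intro M _ a b hz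
    obtain ⟨h', hh'⟩ := vcEquiv_some C hC _ _ (M1a.nonsingular_wp (Ltau τ) hz)
    refine ⟨_, _, h', ?_, ?_⟩
    · simp only [AddMonoidHom.coe_comp, Function.comp_apply, M1a.phiHom_apply,
        AddEquiv.coe_toAddMonoidHom, M1a.phi_of_notMem _ hz, hh']
    · rw [kapNum_vc, c₄_vc W C, hC, WL_b₂, WL_b₄, mul_assoc, mul_assoc, ← wpp_divPt M τ a b hz]
      unfold M1a.wpp
      ring

end Fermat.Agent.S15.M1.Unif
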