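import Fermat.Agent.S15.M1.Contracts
import Fermat.Agent.S15.M1.Unif.ANQ

/-!
# S15 / M1 / Unif / Out : the contract `M1.AnOut`
-/

set_option autoImplicit false

noncomputable section

namespace Fermat.Agent.S15.M1.Unif

open UpperHalfPlane WeierstrassCurve Fermat.Agent.S24.JLocal

local notation "Δ" => ModularForm.discriminant

theorem psi2_eq {F : Type*} [Field F] (W : WeierstrassCurve F) (P : W.toAffine.Point) :
    M1.psi2 W P = psi2 W P := by
  cases P <;> rfl

/-- **CONTRACT AN.** -/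
theorem anOut : M1.AnOut := by
  intro N _ hN hN2 W hΔ Q hQ
  have : W.IsElliptic := ⟨isUnit_iff_ne_zero.2 hΔ⟩
  obtain ⟨τ, hj, hd⟩ := AN_of_star hN (starStmt hN (hN.odd_of_ne_two hN2)) W Q hQ
  refine ⟨τ, ?_, ?_⟩
  · rw [hj, WeierstrassCurve.j, Units.val_inv_eq_inv_val, coe_Δ']
    field_simp
  · have h1 : Δ (S24.mulH N τ) ≠ 0 := ModularForm.discriminant_ne_zero _
    have h2 : W.Δ ^ (N - 1) ≠ 0 := pow_ne_zero _ hΔ
    rw [M1.meter]
    simp only [psi2_eq]
    rw [div_eq_iff h1, mul_div_assoc', div_mul_eq_mul_div, eq_div_iff h2, hd]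

end Fermat.Agent.S15.M1.Unif
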